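/-
S25 package TWIST, leaves G5 + G5' (helper1451): Euler characteristic of a point twist over an
algebraically closed field,

    chi (tensor M (Γ₁ 𝒞 y)) = chi M - 1,      chi (tensor M (Γ₂ 𝒞 y)) = chi M - 1,

EXACT names and statements of `TWIST/G5.lean` (helper9130 plan v1), in namespace
`Fermat.Agent.S25.TWIST.G5.H1451`.  No sorry.

Proof: the inclusion `Γ_y → O` is injective with cokernel the skyscraper `κ_y` (chart of the
point: `B/ker(ev_y) ≅ κ`; other chart: the restriction map of the cokernel is bijective), so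
`χ(O) - χ(Γ_y) = 1`; tensoring with the line bundle `M` does not change the difference of Euler
characteristics (`gchi_tensor_sub`, `G5/DegAdd1451.lean`), and `M ⊗ O ≅ M`.
Uses: LIB `Lib/Euler/*` (Euler characteristic calculus, `isCurveChart_chart`) and `TWIST/Defs.lean`
only — NO leaf stub is imported (the line-bundle property of `Γ_y` is not needed), so the two
leaves have standard axioms.
-/
import Fermat.Agent.S25.TWIST.Defs
import Fermat.Agent.S25.TWIST.G5.DegAdd1451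
import Fermat.Agent.S25.Lib.Euler.Inst

set_option autoImplicit false

universe u

namespace Fermat.Agent.S25.TWIST.G5.H1451

open Function TensorProduct

open Fermat.Agent.S25.Lib.Euler

/-! ### Torsion glued modules concentrated on one chart -/

section Torsion

variable {κ : Type u} [Field κ] {𝔹 : TwoChart κ}

/-- A torsion glued module whose second restriction map is injective: `h⁰ = dim N₁`. -/
theorem gh0_eq_finrank₁_of_injective₂ (T : GluedModule 𝔹) [Module.Finite κ T.N₁]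
    (h : Injective T.ι₂) : Module.Finite κ T.N₂ ∧ gh0 T = Module.finrank κ T.N₁ := by
  have f12 := finite_N₁₂_of_finite T
  have f2 : Module.Finite κ T.N₂ := Module.Finite.of_injective T.ι₂ h
  refine ⟨f2, ?_⟩
  have hs := ι₂_surjective_of_finite T
  have e : Module.finrank κ T.N₂ = Module.finrank κ T.N₁₂ :=
    (LinearEquiv.ofBijective T.ι₂ ⟨h, hs⟩).finrank_eq
  have h0 := gh0_of_finite T
  omega

/-- A torsion glued module whose first restriction map is injective: `h⁰ = dim N₂`. -/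
theorem gh0_eq_finrank₂_of_injective₁ (T : GluedModule 𝔹) [Module.Finite κ T.N₂]
    (h : Injective T.ι₁) : Module.Finite κ T.N₁ ∧ gh0 T = Module.finrank κ T.N₂ := by
  have f12 : Module.Finite κ T.N₁₂ :=
    Module.Finite.of_surjective T.ι₂ (ι₂_surjective_of_finite T)
  have f1 : Module.Finite κ T.N₁ := Module.Finite.of_injective T.ι₁ h
  refine ⟨f1, ?_⟩
  have hs := ι₁_surjective_of_finite T
  have e : Module.finrank κ T.N₁ = Module.finrank κ T.N₁₂ :=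
    (LinearEquiv.ofBijective T.ι₁ ⟨h, hs⟩).finrank_eq
  have h0 := gh0_of_finite T
  omega

/-- The quotient of a `κ`-algebra by the kernel of a `κ`-point is one-dimensional. -/
theorem finrank_quotient_eq_one_of_ker {B : Type*} [CommRing B] [Algebra κ B]
    (ev : B →ₐ[κ] κ) (P : Submodule B B) (hP : ∀ x, x ∈ P ↔ ev x = 0) :
    Module.Finite κ (B ⧸ P) ∧ Module.finrank κ (B ⧸ P) = 1 := by
  have hsurj : Surjective ev.toLinearMap := fun c => ⟨algebraMap κ B c, by simp⟩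
  have hker : P.restrictScalars κ = LinearMap.ker ev.toLinearMap := by
    ext x
    simp [hP]
  let e : (B ⧸ P) ≃ₗ[κ] κ :=
    (Submodule.Quotient.restrictScalarsEquiv κ P).symm ≪≫ₗ
      Submodule.quotEquivOfEq _ _ hker ≪≫ₗ ev.toLinearMap.quotKerEquivOfSurjective hsurj
  exact ⟨Module.Finite.equiv e.symm, by rw [e.finrank_eq, Module.finrank_self]⟩

end Torsion

/-! ### The inclusion of an ideal sheaf into the structure sheaf -/

section Incl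

variable {R : Type u} [CommRing R] (𝔹 : TwoChart R)

/-- The inclusion of an ideal sheaf into the structure sheaf. -/
def inclHom (a₁ : Ideal 𝔹.B₁) (a₂ : Ideal 𝔹.B₂)
    (h : a₁.map 𝔹.r₁.toRingHom = a₂.map 𝔹.r₂.toRingHom) :
    GluedModule.Hom (ofIdeals 𝔹 a₁ a₂ h) (GluedModule.unit 𝔹) where
  φ₁ := Submodule.subtype a₁
  φ₂ := Submodule.subtype a₂
  φ₁₂ := Submodule.subtype (a₁.map 𝔹.r₁.toRingHom)
  comm₁ _ := rfl
  comm₂ _ := rfl

variable {𝔹}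

theorem inclHom_injective₁ (a₁ : Ideal 𝔹.B₁) (a₂ : Ideal 𝔹.B₂)
    (h : a₁.map 𝔹.r₁.toRingHom = a₂.map 𝔹.r₂.toRingHom) :
    Injective (inclHom 𝔹 a₁ a₂ h).φ₁ := Subtype.val_injective

theorem inclHom_injective₂ (a₁ : Ideal 𝔹.B₁) (a₂ : Ideal 𝔹.B₂)
    (h : a₁.map 𝔹.r₁.toRingHom = a₂.map 𝔹.r₂.toRingHom) :
    Injective (inclHom 𝔹 a₁ a₂ h).φ₂ := Subtype.val_injective

theorem mem_range_inclHom₁ (a₁ : Ideal 𝔹.B₁) (a₂ : Ideal 𝔹.B₂)
    (h : a₁.map 𝔹.r₁.toRingHom = a₂.map 𝔹.r₂.toRingHom) (x : 𝔹.B₁) :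
    x ∈ LinearMap.range (inclHom 𝔹 a₁ a₂ h).φ₁ ↔ x ∈ a₁ :=
  ⟨fun ⟨y, hy⟩ => hy ▸ y.2, fun hx => ⟨⟨x, hx⟩, rfl⟩⟩

theorem mem_range_inclHom₂ (a₁ : Ideal 𝔹.B₁) (a₂ : Ideal 𝔹.B₂)
    (h : a₁.map 𝔹.r₁.toRingHom = a₂.map 𝔹.r₂.toRingHom) (x : 𝔹.B₂) :
    x ∈ LinearMap.range (inclHom 𝔹 a₁ a₂ h).φ₂ ↔ x ∈ a₂ :=
  ⟨fun ⟨y, hy⟩ => hy ▸ y.2, fun hx => ⟨⟨x, hx⟩, rfl⟩⟩

theorem mem_range_inclHom₁₂ (a₁ : Ideal 𝔹.B₁) (a₂ : Ideal 𝔹.B₂)
    (h : a₁.map 𝔹.r₁.toRingHom = a₂.map 𝔹.r₂.toRingHom) (x : 𝔹.B₁₂) :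
    x ∈ LinearMap.range (inclHom 𝔹 a₁ a₂ h).φ₁₂ ↔ x ∈ a₁.map 𝔹.r₁.toRingHom :=
  ⟨fun ⟨y, hy⟩ => hy ▸ y.2, fun hx => ⟨⟨x, hx⟩, rfl⟩⟩

/-- For the closure of a subscheme of chart 1, the cokernel `O/𝔞` restricts injectively from
chart 2 to the overlap. -/
theorem cokerG_ι₂_injective_of_comap (a₁ : Ideal 𝔹.B₁) (a₂ : Ideal 𝔹.B₂)
    (h : a₁.map 𝔹.r₁.toRingHom = a₂.map 𝔹.r₂.toRingHom)
    (ha₂ : a₂ = (a₁.map 𝔹.r₁.toRingHom).comap 𝔹.r₂.toRingHom) :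
    Injective (cokerG (inclHom 𝔹 a₁ a₂ h)).ι₂ := by
  rw [injective_iff_map_eq_zero]
  intro x hx
  obtain ⟨b, rfl⟩ := Submodule.Quotient.mk_surjective _ x
  change cokerι₂ (inclHom 𝔹 a₁ a₂ h) (Submodule.Quotient.mk b) = 0 at hx
  rw [cokerι₂_mk, Submodule.Quotient.mk_eq_zero, mem_range_inclHom₁₂] at hx
  refine (Submodule.Quotient.mk_eq_zero (LinearMap.range (inclHom 𝔹 a₁ a₂ h).φ₂)).mpr ?_
  rw [mem_range_inclHom₂, ha₂, Ideal.mem_comap]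
  exact hx

/-- For the closure of a subscheme of chart 2, the cokernel `O/𝔞` restricts injectively from
chart 1 to the overlap. -/
theorem cokerG_ι₁_injective_of_comap (a₁ : Ideal 𝔹.B₁) (a₂ : Ideal 𝔹.B₂)
    (h : a₁.map 𝔹.r₁.toRingHom = a₂.map 𝔹.r₂.toRingHom)
    (ha₁ : a₁ = (a₂.map 𝔹.r₂.toRingHom).comap 𝔹.r₁.toRingHom) :
    Injective (cokerG (inclHom 𝔹 a₁ a₂ h)).ι₁ := by
  rw [injective_iff_map_eq_zero]
  intro x hx
  obtain ⟨b, rfl⟩ := Submodule.Quotient.mk_surjective _ x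
  change cokerι₁ (inclHom 𝔹 a₁ a₂ h) (Submodule.Quotient.mk b) = 0 at hx
  rw [cokerι₁_mk, Submodule.Quotient.mk_eq_zero, mem_range_inclHom₁₂, h] at hx
  refine (Submodule.Quotient.mk_eq_zero (LinearMap.range (inclHom 𝔹 a₁ a₂ h).φ₁)).mpr ?_
  rw [mem_range_inclHom₁, ha₁, Ideal.mem_comap]
  exact hx

end Incl

/-! ### The leaves -/

section G5

variable {k : Type u} [Field k] (𝒞 : CurveData k)

section Incl

variable (κ : Type u) [Field κ] [Algebra k κ]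

variable {κ} in
/-- The inclusion `O(-y) → O`, `y` a point of the first chart. -/
noncomputable def inclΓ₁ (y : 𝒞.A₁ →ₐ[k] κ) :
    GluedModule.Hom (Γ₁ 𝒞 y) (GluedModule.unit (𝒞.chart κ)) :=
  inclHom (𝒞.chart κ) (RingHom.ker (pointEval₁ 𝒞 y).toRingHom)
    (((RingHom.ker (pointEval₁ 𝒞 y).toRingHom).map (𝒞.chart κ).r₁.toRingHom).comap
      (𝒞.chart κ).r₂.toRingHom) (map_comap_map₂ (𝒞.chart κ) _)

variable {κ} in
/-- The inclusion `O(-y) → O`, `y` a point of the second chart. -/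
noncomputable def inclΓ₂ (y : 𝒞.A₂ →ₐ[k] κ) :
    GluedModule.Hom (Γ₂ 𝒞 y) (GluedModule.unit (𝒞.chart κ)) :=
  inclHom (𝒞.chart κ)
    (((RingHom.ker (pointEval₂ 𝒞 y).toRingHom).map (𝒞.chart κ).r₂.toRingHom).comap
      (𝒞.chart κ).r₁.toRingHom) (RingHom.ker (pointEval₂ 𝒞 y).toRingHom)
    (map_comap_map₁ (𝒞.chart κ) _)

/-- `χ(O) = χ(O(-y)) + 1`, `y` a point of the first chart. -/
theorem gchi_unit_eq_gchi_Γ₁_add_one (y : 𝒞.A₁ →ₐ[k] κ) :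
    ∃ φ : GluedModule.Hom (Γ₁ 𝒞 y) (GluedModule.unit (𝒞.chart κ)),
      Injective φ.φ₁ ∧ Injective φ.φ₂ ∧
      Module.Finite κ ((GluedModule.unit (𝒞.chart κ)).N₁ ⧸ LinearMap.range φ.φ₁) ∧
      Module.Finite κ ((GluedModule.unit (𝒞.chart κ)).N₂ ⧸ LinearMap.range φ.φ₂) ∧
      gh0 (cokerG φ) = 1 := by
  obtain ⟨fin₁, hr⟩ := finrank_quotient_eq_one_of_ker (κ := κ) (pointEval₁ 𝒞 y)
    (LinearMap.range (inclΓ₁ 𝒞 y).φ₁) (fun x =>
      (mem_range_inclHom₁ _ _ _ x).trans RingHom.mem_ker)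
  have fin₁' : Module.Finite κ (cokerG (inclΓ₁ 𝒞 y)).N₁ := fin₁
  have hinj : Injective (cokerG (inclΓ₁ 𝒞 y)).ι₂ := cokerG_ι₂_injective_of_comap _ _ _ rfl
  obtain ⟨fin₂, h0⟩ := gh0_eq_finrank₁_of_injective₂ (cokerG (inclΓ₁ 𝒞 y)) hinj
  exact ⟨inclΓ₁ 𝒞 y, inclHom_injective₁ _ _ _, inclHom_injective₂ _ _ _, fin₁, fin₂,
    h0.trans hr⟩

/-- `χ(O) = χ(O(-y)) + 1`, `y` a point of the second chart. -/
theorem gchi_unit_eq_gchi_Γ₂_add_one (y : 𝒞.A₂ →ₐ[k] κ) :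
    ∃ φ : GluedModule.Hom (Γ₂ 𝒞 y) (GluedModule.unit (𝒞.chart κ)),
      Injective φ.φ₁ ∧ Injective φ.φ₂ ∧
      Module.Finite κ ((GluedModule.unit (𝒞.chart κ)).N₁ ⧸ LinearMap.range φ.φ₁) ∧
      Module.Finite κ ((GluedModule.unit (𝒞.chart κ)).N₂ ⧸ LinearMap.range φ.φ₂) ∧
      gh0 (cokerG φ) = 1 := by
  obtain ⟨fin₂, hr⟩ := finrank_quotient_eq_one_of_ker (κ := κ) (pointEval₂ 𝒞 y)
    (LinearMap.range (inclΓ₂ 𝒞 y).φ₂) (fun x =>
      (mem_range_inclHom₂ _ _ _ x).trans RingHom.mem_ker)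
  have fin₂' : Module.Finite κ (cokerG (inclΓ₂ 𝒞 y)).N₂ := fin₂
  have hinj : Injective (cokerG (inclΓ₂ 𝒞 y)).ι₁ := cokerG_ι₁_injective_of_comap _ _ _ rfl
  obtain ⟨fin₁, h0⟩ := gh0_eq_finrank₂_of_injective₁ (cokerG (inclΓ₂ 𝒞 y)) hinj
  exact ⟨inclΓ₂ 𝒞 y, inclHom_injective₁ _ _ _, inclHom_injective₂ _ _ _, fin₁, fin₂,
    h0.trans hr⟩

end Incl

variable [IsAlgClosed k] (κ : Type u) [Field κ] [IsAlgClosed κ] [Algebra k κ]

/-- Tensoring with a glued module `P ⊆ O` of colength one lowers `χ` by one. -/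
theorem chi_tensor_of_colength_one (M P : GluedModule (𝒞.chart κ)) (hM : M.IsLineBundle)
    (hφ : ∃ φ : GluedModule.Hom P (GluedModule.unit (𝒞.chart κ)),
      Injective φ.φ₁ ∧ Injective φ.φ₂ ∧
      Module.Finite κ ((GluedModule.unit (𝒞.chart κ)).N₁ ⧸ LinearMap.range φ.φ₁) ∧
      Module.Finite κ ((GluedModule.unit (𝒞.chart κ)).N₂ ⧸ LinearMap.range φ.φ₂) ∧
      gh0 (cokerG φ) = 1) :
    GluedModule.chi (Ten.tensor M P) = GluedModule.chi M - 1 := by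
  obtain ⟨φ, h₁, h₂, fin₁, fin₂, h0⟩ := hφ
  have hc := isCurveChart_chart 𝒞 κ
  have i₁ := hM.inv₁
  have i₂ := hM.inv₂
  have eU : GluedModule.Iso (Ten.tensor M (GluedModule.unit (𝒞.chart κ))) M :=
    Ten.tensorUnitRight M
  have hMfin : FinCoh M := hc.finCoh_of_isLineBundle hM
  have hMU : FinCoh (Ten.tensor M (GluedModule.unit (𝒞.chart κ))) :=
    finCoh_congr eU.symm hMfin
  have hPfin : FinCoh P := finCoh_of_injective_of_finite' φ h₁ h₂ hc.finCoh_unit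
  obtain ⟨g₁, -⟩ := finrank_coker_lTensor (κ := κ) M.N₁ φ.φ₁
  obtain ⟨g₂, -⟩ := finrank_coker_lTensor (κ := κ) M.N₂ φ.φ₂
  have g₁' : Module.Finite κ ((Ten.tensor M (GluedModule.unit (𝒞.chart κ))).N₁ ⧸
      LinearMap.range (lTensorHom M φ).φ₁) := g₁
  have g₂' : Module.Finite κ ((Ten.tensor M (GluedModule.unit (𝒞.chart κ))).N₂ ⧸
      LinearMap.range (lTensorHom M φ).φ₂) := g₂
  have hMPfin : FinCoh (Ten.tensor M P) :=
    finCoh_of_injective_of_finite' (lTensorHom M φ) (lTensorHom_injective₁ hM φ h₁)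
      (lTensorHom_injective₂ hM φ h₂) hMU
  obtain ⟨-, hsub⟩ := gchi_tensor_sub hM φ h₁ h₂ hPfin hMPfin
  have hχ := gchi_of_injective_of_finite φ h₁ h₂ hPfin
  rw [gchi_congr eU, hχ, h0] at hsub
  rw [chi_eq_gchi, chi_eq_gchi]
  push_cast at hsub
  linarith

/-- (G5) `χ(M(-y)) = χ(M) - 1`, `y` a point of the first chart. -/
theorem chi_tensor_Γ₁ (M : GluedModule (𝒞.chart κ)) (hM : M.IsLineBundle) (y : 𝒞.A₁ →ₐ[k] κ) :
    GluedModule.chi (Ten.tensor M (Γ₁ 𝒞 y)) = GluedModule.chi M - 1 :=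
  chi_tensor_of_colength_one 𝒞 κ M (Γ₁ 𝒞 y) hM (gchi_unit_eq_gchi_Γ₁_add_one 𝒞 κ y)

/-- (G5') `χ(M(-y)) = χ(M) - 1`, `y` a point of the second chart. -/
theorem chi_tensor_Γ₂ (M : GluedModule (𝒞.chart κ)) (hM : M.IsLineBundle) (y : 𝒞.A₂ →ₐ[k] κ) :
    GluedModule.chi (Ten.tensor M (Γ₂ 𝒞 y)) = GluedModule.chi M - 1 :=
  chi_tensor_of_colength_one 𝒞 κ M (Γ₂ 𝒞 y) hM (gchi_unit_eq_gchi_Γ₂_add_one 𝒞 κ y)

end G5

end Fermat.Agent.S25.TWIST.G5.H1451
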