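/-
S25 package TWIST, leaf G5, helper file (helper1451): the degree is additive under the tensor
product `Ten.tensor` (= port of my `DegAdd1451.lean` from helper1308's tensor to its TWIST copy
`TWIST/{Tensor,TensorIso}.lean`).  On LIB `Lib/Euler/{Deg,TensorDim}.lean`.  No sorry.

* `lTensorHom M φ : Hom (M ⊗ N') (M ⊗ N)`;
* `gchi_tensor_sub`: for a line bundle `M` and `φ : N' → N` injective with finite-dimensional
  chart cokernels, `χ(M ⊗ N) - χ(M ⊗ N') = χ(N) - χ(N')`;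
* `deg_tensor : deg (M ⊗ N) = deg M + deg N` for line bundles;
* `deg_lbDual : deg (N^∨) = - deg N`.
-/
import Fermat.Agent.S25.Lib.Euler.Deg
import Fermat.Agent.S25.Lib.Euler.TensorDim
import Fermat.Agent.S25.TWIST.TensorIso

set_option autoImplicit false

universe u

namespace Fermat.Agent.S25.TWIST.G5.H1451

open Function TensorProduct

open Fermat.Agent.S25.Lib.Euler

section LTensor

variable {R : Type u} [CommRing R] {𝔹 : TwoChart R}

/-- `id_M ⊗ φ`. -/
def lTensorHom (M : GluedModule 𝔹) {N' N : GluedModule 𝔹} (φ : GluedModule.Hom N' N) :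
    GluedModule.Hom (Ten.tensor M N') (Ten.tensor M N) :=
  Ten.tensorHom (GluedModule.Hom.id M) φ

theorem lTensorHom_φ₁ (M : GluedModule 𝔹) {N' N : GluedModule 𝔹} (φ : GluedModule.Hom N' N) :
    (lTensorHom M φ).φ₁ = φ.φ₁.lTensor M.N₁ := rfl

theorem lTensorHom_φ₂ (M : GluedModule 𝔹) {N' N : GluedModule 𝔹} (φ : GluedModule.Hom N' N) :
    (lTensorHom M φ).φ₂ = φ.φ₂.lTensor M.N₂ := rfl

theorem lTensorHom_φ₁₂ (M : GluedModule 𝔹) {N' N : GluedModule 𝔹} (φ : GluedModule.Hom N' N) :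
    (lTensorHom M φ).φ₁₂ = φ.φ₁₂.lTensor M.N₁₂ := rfl

end LTensor

section RangeLTensor

variable {B : Type*} [CommRing B] (M : Type*) [AddCommGroup M] [Module B M]
  {X Y : Type*} [AddCommGroup X] [Module B X] [AddCommGroup Y] [Module B Y]

theorem range_lTensor_subtype (φ : X →ₗ[B] Y) :
    LinearMap.range ((LinearMap.range φ).subtype.lTensor M) = LinearMap.range (φ.lTensor M) := by
  have h1 : φ = (LinearMap.range φ).subtype ∘ₗ φ.rangeRestrict := by
    ext x
    rfl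
  have h2 : φ.lTensor M =
      (LinearMap.range φ).subtype.lTensor M ∘ₗ φ.rangeRestrict.lTensor M := by
    rw [← LinearMap.lTensor_comp, ← h1]
  have h3 : Surjective (φ.rangeRestrict.lTensor M) :=
    LinearMap.lTensor_surjective M φ.surjective_rangeRestrict
  rw [h2, LinearMap.range_comp_of_range_eq_top _ (LinearMap.range_eq_top.mpr h3)]

/-- `(M ⊗ Y) ⧸ range (id ⊗ φ) ≃ M ⊗ (Y ⧸ range φ)`. -/
noncomputable def cokerLTensorEquiv (φ : X →ₗ[B] Y) :
    M ⊗[B] (Y ⧸ LinearMap.range φ) ≃ₗ[B] (M ⊗[B] Y) ⧸ LinearMap.range (φ.lTensor M) :=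
  TensorProduct.tensorQuotientEquiv M (LinearMap.range φ) ≪≫ₗ
    Submodule.quotEquivOfEq _ _ (range_lTensor_subtype M φ)

end RangeLTensor

section Field

variable {κ : Type u} [Field κ] {𝔹 : TwoChart κ}

/-- The `κ`-dimension of a cokernel after tensoring with an invertible module. -/
theorem finrank_coker_lTensor {B : Type u} [CommRing B] [Algebra κ B]
    (M : Type u) [AddCommGroup M] [Module B M] [Module κ M] [IsScalarTower κ B M]
    [Module.Invertible B M]
    {X Y : Type u} [AddCommGroup X] [Module B X] [AddCommGroup Y] [Module B Y] [Module κ Y]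
    [IsScalarTower κ B Y] (φ : X →ₗ[B] Y) [Module.Finite κ (Y ⧸ LinearMap.range φ)] :
    Module.Finite κ ((M ⊗[B] Y) ⧸ LinearMap.range (φ.lTensor M)) ∧
    Module.finrank κ ((M ⊗[B] Y) ⧸ LinearMap.range (φ.lTensor M)) =
      Module.finrank κ (Y ⧸ LinearMap.range φ) := by
  have hfin : Module.Finite κ (M ⊗[B] (Y ⧸ LinearMap.range φ)) :=
    finite_tensor_invertible (κ := κ) (B := B) (Y ⧸ LinearMap.range φ) M
  refine ⟨finite_of_linearEquiv (κ := κ) (cokerLTensorEquiv M φ), ?_⟩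
  rw [← finrank_eq_of_linearEquiv (κ := κ) (cokerLTensorEquiv M φ)]
  exact finrank_tensor_invertible (κ := κ) (B := B) (Y ⧸ LinearMap.range φ) M

variable {M N' N : GluedModule 𝔹}

theorem lTensorHom_injective₁ (hM : M.IsLineBundle) (φ : GluedModule.Hom N' N)
    (h : Injective φ.φ₁) : Injective (lTensorHom M φ).φ₁ := by
  have := hM.inv₁
  exact Module.Flat.lTensor_preserves_injective_linearMap (M := M.N₁) φ.φ₁ h

theorem lTensorHom_injective₂ (hM : M.IsLineBundle) (φ : GluedModule.Hom N' N)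
    (h : Injective φ.φ₂) : Injective (lTensorHom M φ).φ₂ := by
  have := hM.inv₂
  exact Module.Flat.lTensor_preserves_injective_linearMap (M := M.N₂) φ.φ₂ h

/-- Tensoring an injective morphism with finite-dimensional chart cokernels by a line bundle:
the difference of Euler characteristics is unchanged. -/
theorem gchi_tensor_sub (hM : M.IsLineBundle) (φ : GluedModule.Hom N' N)
    (h₁ : Injective φ.φ₁) (h₂ : Injective φ.φ₂)
    [f₁ : Module.Finite κ (N.N₁ ⧸ LinearMap.range φ.φ₁)]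
    [f₂ : Module.Finite κ (N.N₂ ⧸ LinearMap.range φ.φ₂)]
    (hfin : FinCoh N') (hfinM : FinCoh (Ten.tensor M N')) :
    FinCoh (Ten.tensor M N) ∧
      gchi (Ten.tensor M N) - gchi (Ten.tensor M N') = gchi N - gchi N' := by
  have i₁ := hM.inv₁
  have i₂ := hM.inv₂
  have i₁₂ := Ten.isLineBundle_inv₁₂ hM
  have f₁₂ : Module.Finite κ (N.N₁₂ ⧸ LinearMap.range φ.φ₁₂) :=
    finite_N₁₂_of_finite (cokerG φ)
  obtain ⟨g₁, e₁⟩ := finrank_coker_lTensor (κ := κ) M.N₁ φ.φ₁
  obtain ⟨g₂, e₂⟩ := finrank_coker_lTensor (κ := κ) M.N₂ φ.φ₂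
  obtain ⟨g₁₂, e₁₂⟩ := finrank_coker_lTensor (κ := κ) M.N₁₂ φ.φ₁₂
  have g₁' : Module.Finite κ
      ((Ten.tensor M N).N₁ ⧸ LinearMap.range (lTensorHom M φ).φ₁) := g₁
  have g₂' : Module.Finite κ
      ((Ten.tensor M N).N₂ ⧸ LinearMap.range (lTensorHom M φ).φ₂) := g₂
  have j₁ := lTensorHom_injective₁ hM φ h₁
  have j₂ := lTensorHom_injective₂ hM φ h₂
  refine ⟨finCoh_of_injective_of_finite (lTensorHom M φ) j₁ j₂ hfinM, ?_⟩
  have hA := gchi_of_injective_of_finite (lTensorHom M φ) j₁ j₂ hfinM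
  have hB := gchi_of_injective_of_finite φ h₁ h₂ hfin
  have hC := gh0_of_finite (cokerG (lTensorHom M φ))
  have hD := gh0_of_finite (cokerG φ)
  have e₁' : Module.finrank κ (cokerG (lTensorHom M φ)).N₁ =
      Module.finrank κ (cokerG φ).N₁ := e₁
  have e₂' : Module.finrank κ (cokerG (lTensorHom M φ)).N₂ =
      Module.finrank κ (cokerG φ).N₂ := e₂
  have e₁₂' : Module.finrank κ (cokerG (lTensorHom M φ)).N₁₂ =
      Module.finrank κ (cokerG φ).N₁₂ := e₁₂
  rw [e₁', e₂', e₁₂'] at hC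
  rw [hA, hB, hC, hD]
  ring

section CurveChart

variable (h𝔹 : IsCurveChart 𝔹)
include h𝔹

/-- `deg (M ⊗ N) = deg M + deg N` when `N` has a nonzero section. -/
theorem deg_tensor_of_section {M N : GluedModule 𝔹} (hM : M.IsLineBundle) (hN : N.IsLineBundle)
    {s : N.H0} (hs : s ≠ 0) :
    h𝔹.deg (Ten.tensor M N) = h𝔹.deg M + h𝔹.deg N := by
  have := h𝔹.finite_coker_sectionHom₁ hN hs
  have := h𝔹.finite_coker_sectionHom₂ hN hs
  have eU : GluedModule.Iso (Ten.tensor M (GluedModule.unit 𝔹)) M := Ten.tensorUnitRight M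
  have hMfin : FinCoh M := h𝔹.finCoh_of_isLineBundle hM
  have hMU : FinCoh (Ten.tensor M (GluedModule.unit 𝔹)) := finCoh_congr eU.symm hMfin
  obtain ⟨-, h1⟩ := gchi_tensor_sub hM (sectionHom N s) (h𝔹.sectionHom_injective₁ hN hs)
    (h𝔹.sectionHom_injective₂ hN hs) h𝔹.finCoh_unit hMU
  rw [gchi_congr eU] at h1
  unfold IsCurveChart.deg
  linarith

/-- **The degree is additive**: `deg (M ⊗ N) = deg M + deg N`. -/
theorem deg_tensor {M N : GluedModule 𝔹} (hM : M.IsLineBundle) (hN : N.IsLineBundle) :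
    h𝔹.deg (Ten.tensor M N) = h𝔹.deg M + h𝔹.deg N := by
  obtain ⟨m, s, hs⟩ := h𝔹.exists_twist_section hN
  have hNm : (N.twist (m : ℤ)).IsLineBundle := GluedModule.twist_isLineBundle hN m
  have h1 := deg_tensor_of_section h𝔹 hM hNm hs
  have e : GluedModule.Iso (Ten.tensor M (N.twist (m : ℤ)))
      ((Ten.tensor M N).twist (m : ℤ)) := Ten.tensorTwistRight M N m
  rw [h𝔹.deg_congr e, h𝔹.deg_twist (Ten.tensor_isLineBundle hM hN) m,
    h𝔹.deg_twist hN m] at h1
  linarith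

/-- `deg (N^∨) = - deg N`. -/
theorem deg_lbDual {N : GluedModule 𝔹} (hN : N.IsLineBundle) :
    h𝔹.deg (Ten.lbDual N hN) = - h𝔹.deg N := by
  have h1 := deg_tensor h𝔹 (Ten.lbDual_isLineBundle hN) hN
  have e : GluedModule.Iso (Ten.tensor (Ten.lbDual N hN) N) (GluedModule.unit 𝔹) :=
    Ten.lbDualTensorIso hN
  rw [h𝔹.deg_congr e, h𝔹.deg_unit] at h1
  linarith

end CurveChart

end Field

end Fermat.Agent.S25.TWIST.G5.H1451
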